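/-
RIBET / WALL-p, leaf NC-IF, part 2 (helper152): every good level contains the inertia field.

`P` a valuation subring of `ℚ̄` over the prime `q`, `E ⊆ ℚ̄` an intermediate field such that
`R_E = P ∩ E` is henselian with algebraically closed residue field (e.g. `A2.GoodField P E`).
Then `Gal(ℚ̄/E) ⊆ I_P`, i.e. `ℚ̄^{I_P} ⊆ E` (`goodUp_inertiaField_le`,
`inertiaField_le_of_goodField`).  Consequently all lemmas of `A2/IF/H429` with the hypothesis
`inertiaField P ≤ E` apply to EVERY good level.
-/
import Fermat.Agent.Ribet.H152.GoodUnique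
import Fermat.Agent.A2.IF.H9.InertiaClosed

set_option autoImplicit false
set_option linter.unusedSectionVars false
set_option linter.style.haveILetI false

namespace Fermat.Agent.Ribet.H152

open Polynomial Fermat.Agent.A2 Fermat.Agent.A2.IF.H429
open Fermat.Agent.S55.Bridge Fermat.Agent.S55.Bridge.H594

attribute [local instance] isAlgebraic_Qbar isGalois_Qbar

variable (P : ValuationSubring Qb) (E : IntermediateField ℚ Qb)

/-- The inclusion `R_E → P` is a local homomorphism. -/
theorem goodUp_isLocalHom_inclRE : IsLocalHom (inclRE P E) := by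
  constructor
  intro a ha
  rw [← IsLocalRing.notMem_maximalIdeal, mem_maximalIdeal_RE_iff]
  intro h
  have h1 : inclRE P E a ∈ IsLocalRing.maximalIdeal P := by
    rw [← ValuationSubring.coe_mem_nonunits_iff]
    exact h
  exact (IsLocalRing.mem_maximalIdeal _).mp h1 ha

/-- If the residue field of `R_E` is algebraically closed, every element of `P` is congruent
modulo the maximal ideal to an element of `R_E`. -/
theorem goodUp_exists_approx (q : ℕ) (hq : q.Prime) (hP : P.LiesOverPrime q)
    [IsAlgClosed (IsLocalRing.ResidueField (P.comap (algebraMap E Qb)))]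
    (y : Qb) (hy : y ∈ P) : ∃ a : Qb, a ∈ E ∧ a ∈ P ∧ y - a ∈ P.nonunits := by
  haveI : IsLocalHom (inclRE P E) := goodUp_isLocalHom_inclRE P E
  let φ : IsLocalRing.ResidueField (P.comap (algebraMap E Qb)) →+* IsLocalRing.ResidueField P :=
    IsLocalRing.ResidueField.map (inclRE P E)
  letI : Algebra (IsLocalRing.ResidueField (P.comap (algebraMap E Qb)))
      (IsLocalRing.ResidueField P) := φ.toAlgebra
  obtain ⟨N, hqN, hN, hyN⟩ := exists_pow_sub_mem_nonunits P q hq hP y hy
  have hN2 : 1 < N := by
    have h1 := Nat.le_of_dvd hN hqN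
    have h2 := hq.two_le
    omega
  let y' : P := ⟨y, hy⟩
  set yb : IsLocalRing.ResidueField P := IsLocalRing.residue P y' with hyb
  have hroot : yb ^ N - yb = 0 := by
    rw [hyb, ← map_pow, ← map_sub, IsLocalRing.residue_eq_zero_iff,
      ← ValuationSubring.coe_mem_nonunits_iff]
    exact hyN
  have hint : IsIntegral (IsLocalRing.ResidueField (P.comap (algebraMap E Qb))) yb := by
    refine ⟨X ^ N - X, monic_X_pow_sub (by rw [degree_X]; exact_mod_cast hN2), ?_⟩
    rw [eval₂_sub, eval₂_pow, eval₂_X]
    exact hroot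
  have hdeg := IsAlgClosed.degree_eq_one_of_irreducible
    (IsLocalRing.ResidueField (P.comap (algebraMap E Qb))) (minpoly.irreducible hint)
  obtain ⟨ab, hab⟩ := minpoly.mem_range_of_degree_eq_one
    (IsLocalRing.ResidueField (P.comap (algebraMap E Qb))) yb hdeg
  obtain ⟨a, rfl⟩ := IsLocalRing.residue_surjective ab
  refine ⟨((a : E) : Qb), (a : E).2, a.2, ?_⟩
  have h1 : IsLocalRing.residue P (inclRE P E a) = yb := by
    rw [← hab]
    rfl
  have h2 : IsLocalRing.residue P (y' - inclRE P E a) = 0 := by
    rw [map_sub, h1]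
    exact sub_self _
  rw [IsLocalRing.residue_eq_zero_iff, ← ValuationSubring.coe_mem_nonunits_iff] at h2
  exact h2

/-- **`Gal(ℚ̄/E) ⊆ I_P`** for `R_E` henselian with algebraically closed residue field. -/
theorem goodUp_mem_inertia (q : ℕ) (hq : q.Prime) (hP : P.LiesOverPrime q)
    [HenselianLocalRing (P.comap (algebraMap E Qb))]
    [IsAlgClosed (IsLocalRing.ResidueField (P.comap (algebraMap E Qb)))]
    (σ : Qb ≃ₐ[ℚ] Qb) (hσ : ∀ e ∈ E, σ e = e) : σ ∈ P.inertiaSubgroupIn ℚ := by
  rw [Fermat.Agent.A2.IF.H9.mem_inertiaSubgroupIn_iff_forall]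
  intro y hy
  obtain ⟨a, haE, -, hya⟩ := goodUp_exists_approx P E q hq hP y hy
  have h1 : σ y - y = σ (y - a) - (y - a) := by
    rw [map_sub, hσ a haE]
    ring
  rw [h1, ValuationSubring.mem_nonunits_iff]
  have h2 : P.valuation (σ (y - a)) < 1 := by
    rw [goodUp_valuation_eq P E σ hσ]
    exact (ValuationSubring.mem_nonunits_iff P).mp hya
  have h3 : P.valuation (y - a) < 1 := (ValuationSubring.mem_nonunits_iff P).mp hya
  exact lt_of_le_of_lt (P.valuation.map_sub _ _) (max_lt h2 h3)

/-- **The inertia field lies in every level with `R_E` henselian and `k_E` algebraically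
closed.** -/
theorem goodUp_inertiaField_le (q : ℕ) (hq : q.Prime) (hP : P.LiesOverPrime q)
    [HenselianLocalRing (P.comap (algebraMap E Qb))]
    [IsAlgClosed (IsLocalRing.ResidueField (P.comap (algebraMap E Qb)))] :
    inertiaField P ≤ E := by
  intro x hx
  apply mem_of_fixed E
  intro σ hσ
  exact (mem_inertiaField_iff P).mp hx σ (goodUp_mem_inertia P E q hq hP σ hσ)

/-- **Every good level contains the inertia field.** -/
theorem inertiaField_le_of_goodField (q : ℕ) (hq : q.Prime) (hP : P.LiesOverPrime q)
    (hE : GoodField P E) : inertiaField P ≤ E := by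
  haveI := hE.henselian
  haveI := hE.algClosed
  exact goodUp_inertiaField_le P E q hq hP

/-- In a good level, the automorphisms fixing the level preserve the valuation. -/
theorem valuation_map_eq_of_goodField (hE : GoodField P E) (σ : Qb ≃ₐ[ℚ] Qb)
    (hσ : ∀ e ∈ E, σ e = e) (x : Qb) : P.valuation (σ x) = P.valuation x := by
  haveI := hE.henselian
  exact goodUp_valuation_eq P E σ hσ x

end Fermat.Agent.Ribet.H152
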