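/-
RIBET / WALL-p, leaf NC-IF, part 1 (helper152): uniqueness of the extension of a henselian
valuation, in the form needed for good levels.

`P` a valuation subring of `ℚ̄`, `E ⊆ ℚ̄` an intermediate field such that `R_E = P ∩ E` is a
henselian local ring (Mathlib's `HenselianLocalRing`: simple roots lift).  Then every automorphism
`σ` of `ℚ̄` fixing `E` pointwise preserves the valuation of `P` (`goodUp_valuation_eq`).

Proof (simple-root Hensel only).  Let `C` be the orbit of `x` under `Gal(ℚ̄/E)`,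
`T₀ ⊆ C` the set of conjugates of maximal value, `m = #T₀`.  If `T₀ ≠ C`, the polynomial
`h = ∏_T (X - π_T / b)` (`T` the `m`-subsets of `C`, `π_T = ∏_{c ∈ T} c`, `b = ∑_T π_T`) has
coefficients in `R_E`, and `h ≡ X^(N-1) (X - 1)` modulo the maximal ideal; Hensel gives a root
`≡ 1` in `R_E`, which must be `π_{T₀} / b`.  So `π_{T₀} / b ∈ E` is fixed by `Gal(ℚ̄/E)`, which
acts transitively on `C`: contradiction.
-/
import Fermat.Agent.A2.IF.H429.IF

set_option autoImplicit false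
set_option linter.unusedSectionVars false

namespace Fermat.Agent.Ribet.H152

open Polynomial Fermat.Agent.A2 Fermat.Agent.A2.IF.H429
open Fermat.Agent.S55.Bridge Fermat.Agent.S55.Bridge.H594

attribute [local instance] isAlgebraic_Qbar isGalois_Qbar

section Orbit

variable (E : IntermediateField ℚ Qb)

/-- The (finite) orbit of `x` under the automorphisms fixing `E`. -/
theorem goodUp_exists_orbit (x : Qb) :
    ∃ C : Finset Qb, x ∈ C ∧
      (∀ τ : Qb ≃ₐ[ℚ] Qb, (∀ e ∈ E, τ e = e) → ∀ c ∈ C, τ c ∈ C) ∧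
      (∀ c₁ ∈ C, ∀ c₂ ∈ C, ∃ τ : Qb ≃ₐ[ℚ] Qb, (∀ e ∈ E, τ e = e) ∧ τ c₁ = c₂) := by
  classical
  set S : Set Qb := {c | ∃ τ : Qb ≃ₐ[ℚ] Qb, (∀ e ∈ E, τ e = e) ∧ τ x = c} with hS
  have hint : IsIntegral ℚ x := Algebra.IsIntegral.isIntegral x
  have hfin : S.Finite := by
    refine (Polynomial.rootSet_finite (minpoly ℚ x) Qb).subset ?_
    rintro c ⟨τ, -, rfl⟩
    rw [Polynomial.mem_rootSet]
    refine ⟨minpoly.ne_zero hint, ?_⟩
    have := Polynomial.aeval_algHom_apply (τ : Qb →ₐ[ℚ] Qb) x (minpoly ℚ x)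
    rw [minpoly.aeval, map_zero] at this
    exact this
  refine ⟨hfin.toFinset, ?_, ?_, ?_⟩
  · rw [Set.Finite.mem_toFinset]
    exact ⟨1, fun _ _ => rfl, rfl⟩
  · intro τ hτ c hc
    rw [Set.Finite.mem_toFinset] at hc ⊢
    obtain ⟨ρ, hρ, rfl⟩ := hc
    exact ⟨τ * ρ, fun e he => by rw [AlgEquiv.mul_apply, hρ e he, hτ e he], rfl⟩
  · intro c₁ hc₁ c₂ hc₂
    rw [Set.Finite.mem_toFinset] at hc₁ hc₂
    obtain ⟨ρ₁, hρ₁, rfl⟩ := hc₁
    obtain ⟨ρ₂, hρ₂, rfl⟩ := hc₂
    refine ⟨ρ₂ * ρ₁⁻¹, fun e he => ?_, ?_⟩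
    · have h1 : ρ₁⁻¹ e = e := by
        have := hρ₁ e he
        calc ρ₁⁻¹ e = ρ₁⁻¹ (ρ₁ e) := by rw [this]
          _ = (ρ₁⁻¹ * ρ₁) e := rfl
          _ = e := by rw [inv_mul_cancel]; rfl
      rw [AlgEquiv.mul_apply, h1, hρ₂ e he]
    · calc (ρ₂ * ρ₁⁻¹) (ρ₁ x) = ρ₂ ((ρ₁⁻¹ * ρ₁) x) := rfl
        _ = ρ₂ x := by rw [inv_mul_cancel]; rfl

end Orbit

section Dominant

variable {K : Type*} [Field K] {Γ : Type*} [LinearOrderedCommGroupWithZero Γ]
  (v : Valuation K Γ)

/-- In a finite family with one strictly dominant term, the sum has the value of that term. -/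
theorem goodUp_val_sum_dominant {α : Type*} [DecidableEq α] (𝒯 : Finset α) (t₀ : α)
    (ht₀ : t₀ ∈ 𝒯) (f : α → K) (h0 : v (f t₀) ≠ 0)
    (hlt : ∀ t ∈ 𝒯, t ≠ t₀ → v (f t) < v (f t₀)) :
    v (∑ t ∈ 𝒯, f t) = v (f t₀) := by
  rw [← Finset.add_sum_erase 𝒯 f ht₀]
  apply Valuation.map_add_eq_of_lt_left
  apply Valuation.map_sum_lt v h0
  intro t ht
  exact hlt t (Finset.mem_of_mem_erase ht) (Finset.ne_of_mem_erase ht)

/-- The product over a subset in which every value is `≤ W` and one is `< W`. -/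
theorem goodUp_val_prod_lt (T : Finset K) (W : Γ) (hW : W ≠ 0) (hle : ∀ c ∈ T, v c ≤ W)
    (c₁ : K) (hc₁ : c₁ ∈ T) (hlt : v c₁ < W) : v (∏ c ∈ T, c) < W ^ T.card := by
  classical
  rw [← Finset.mul_prod_erase T (fun c => c) hc₁, map_mul, map_prod]
  have h1 : ∏ c ∈ T.erase c₁, v c ≤ W ^ (T.erase c₁).card :=
    Finset.prod_le_pow_card _ _ _ (fun c hc => hle c (Finset.mem_of_mem_erase hc))
  have h2 : T.card = (T.erase c₁).card + 1 := by
    rw [Finset.card_erase_of_mem hc₁]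
    have := Finset.card_pos.mpr ⟨c₁, hc₁⟩
    omega
  rw [h2, pow_succ']
  have hWpos : 0 < W ^ (T.erase c₁).card := zero_lt_iff.mpr (pow_ne_zero _ hW)
  calc v c₁ * ∏ c ∈ T.erase c₁, v c ≤ v c₁ * W ^ (T.erase c₁).card :=
        mul_le_mul_right h1 _
    _ < W * W ^ (T.erase c₁).card := mul_lt_mul_of_pos_right hlt hWpos

end Dominant

section Hensel

variable (P : ValuationSubring Qb) (E : IntermediateField ℚ Qb)

/-- A polynomial over `ℚ̄` whose coefficients lie in `P` and in `E` is the image of a polynomial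
over `R_E`. -/
theorem goodUp_mem_lifts (h : Qb[X]) (hP : ∀ n, h.coeff n ∈ P) (hE : ∀ n, h.coeff n ∈ E) :
    h ∈ Polynomial.lifts ((algebraMap E Qb).comp (P.comap (algebraMap E Qb)).subtype) := by
  rw [Polynomial.lifts_iff_coeff_lifts]
  intro n
  exact ⟨⟨⟨h.coeff n, hE n⟩, hP n⟩, rfl⟩

/-- Values of the non-dominant factors at `1`. -/
theorem goodUp_val_one_sub_le {r : Qb} (hr : P.valuation r ≤ 1) : P.valuation (1 - r) ≤ 1 := by
  have := P.valuation.map_sub 1 r
  rw [map_one] at this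
  exact this.trans (max_le le_rfl hr)

/-- **Hensel core.**  `R_E = P ∩ E` henselian.  If the monic polynomial `∏_t (X - r_t)` has
coefficients in `E`, `∑_t r_t = 1` and all `r_t` but `r_{t₀}` are non-units of `P`, then
`r_{t₀} ∈ E`. -/
theorem goodUp_dominant_mem {α : Type*} [DecidableEq α]
    [HenselianLocalRing (P.comap (algebraMap E Qb))]
    (𝒯 : Finset α) (t₀ : α) (ht₀ : t₀ ∈ 𝒯) (r : α → Qb)
    (hlt : ∀ t ∈ 𝒯, t ≠ t₀ → P.valuation (r t) < 1)
    (hsum : ∑ t ∈ 𝒯, r t = 1)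
    (hE : ∀ n, (∏ t ∈ 𝒯, (X - C (r t))).coeff n ∈ E) :
    r t₀ ∈ E := by
  classical
  set v := P.valuation with hv
  -- the dominant term
  have hrest : v (∑ t ∈ 𝒯.erase t₀, r t) < 1 := by
    apply Valuation.map_sum_lt v one_ne_zero
    intro t ht
    exact hlt t (Finset.mem_of_mem_erase ht) (Finset.ne_of_mem_erase ht)
  have hr₀ : 1 - r t₀ = ∑ t ∈ 𝒯.erase t₀, r t := by
    rw [← hsum, ← Finset.add_sum_erase 𝒯 r ht₀]
    ring
  have hr₀lt : v (1 - r t₀) < 1 := by rw [hr₀]; exact hrest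
  have hr₀1 : v (r t₀) = 1 := by
    have h1 : r t₀ = 1 - (1 - r t₀) := by ring
    rw [h1]
    exact Valuation.map_one_sub_of_lt v hr₀lt
  have hle : ∀ t ∈ 𝒯, v (r t) ≤ 1 := by
    intro t ht
    by_cases h : t = t₀
    · rw [h, hr₀1]
    · exact (hlt t ht h).le
  have hone : ∀ t ∈ 𝒯, t ≠ t₀ → v (1 - r t) = 1 := fun t ht hne =>
    Valuation.map_one_sub_of_lt v (hlt t ht hne)
  have hone_le : ∀ t ∈ 𝒯, v (1 - r t) ≤ 1 := fun t ht =>
    goodUp_val_one_sub_le P (hle t ht)
  -- the polynomial over `P`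
  set h : Qb[X] := ∏ t ∈ 𝒯, (X - C (r t)) with hh
  let rP : α → P := fun t => if ht : r t ∈ P then ⟨r t, ht⟩ else 0
  have hrP : ∀ t ∈ 𝒯, ((rP t : P) : Qb) = r t := by
    intro t ht
    have : r t ∈ P := (P.valuation_le_one_iff _).mp (hle t ht)
    simp only [rP, dif_pos this]
  have hmap : (∏ t ∈ 𝒯, (X - C (rP t))).map P.subtype = h := by
    rw [Polynomial.map_prod]
    apply Finset.prod_congr rfl
    intro t ht
    rw [Polynomial.map_sub, Polynomial.map_X, Polynomial.map_C]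
    congr 2
    exact hrP t ht
  have hP : ∀ n, h.coeff n ∈ P := by
    intro n
    rw [← hmap, Polynomial.coeff_map]
    exact Subtype.property _
  have hmonic : h.Monic := Polynomial.monic_prod_of_monic _ _ (fun t _ => monic_X_sub_C _)
  set ι : (P.comap (algebraMap E Qb)) →+* Qb :=
    (algebraMap E Qb).comp (P.comap (algebraMap E Qb)).subtype with hι
  obtain ⟨hR, hRmap, -, hRmonic⟩ :=
    Polynomial.lifts_and_natDegree_eq_and_monic (goodUp_mem_lifts P E h hP hE) hmonic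
  have hιval : ∀ a : (P.comap (algebraMap E Qb)), ι a = ((a : E) : Qb) := fun _ => rfl
  -- values at `1`
  have heval : h.eval 1 = ∏ t ∈ 𝒯, (1 - r t) := by
    rw [hh, Polynomial.eval_prod]
    apply Finset.prod_congr rfl
    intro t _
    simp
  have hG1 : v (h.eval 1) < 1 := by
    rw [heval, ← Finset.mul_prod_erase 𝒯 (fun t => 1 - r t) ht₀, map_mul, map_prod]
    have h1 : ∏ t ∈ 𝒯.erase t₀, v (1 - r t) = 1 :=
      Finset.prod_eq_one fun t ht =>
        hone t (Finset.mem_of_mem_erase ht) (Finset.ne_of_mem_erase ht)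
    rw [h1, mul_one]
    exact hr₀lt
  have hderiv : (derivative h).eval 1 = ∑ t ∈ 𝒯, ∏ t' ∈ 𝒯.erase t, (1 - r t') := by
    rw [hh, Polynomial.derivative_prod_finset, Polynomial.eval_finsetSum]
    apply Finset.sum_congr rfl
    intro t _
    rw [Polynomial.derivative_sub, Polynomial.derivative_X, Polynomial.derivative_C, sub_zero,
      mul_one, Polynomial.eval_prod]
    apply Finset.prod_congr rfl
    intro t' _
    simp
  have hG2 : v ((derivative h).eval 1) = 1 := by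
    rw [hderiv]
    have hdom : v (∏ t' ∈ 𝒯.erase t₀, (1 - r t')) = 1 := by
      rw [map_prod]
      exact Finset.prod_eq_one fun t ht =>
        hone t (Finset.mem_of_mem_erase ht) (Finset.ne_of_mem_erase ht)
    rw [goodUp_val_sum_dominant v 𝒯 t₀ ht₀ (fun t => ∏ t' ∈ 𝒯.erase t, (1 - r t'))
      (by rw [hdom]; exact one_ne_zero) ?_]
    · exact hdom
    · intro t ht hne
      rw [hdom]
      have ht₀' : t₀ ∈ 𝒯.erase t := Finset.mem_erase.mpr ⟨fun h => hne h.symm, ht₀⟩
      rw [← Finset.mul_prod_erase (𝒯.erase t) (fun t' => 1 - r t') ht₀', map_mul, map_prod]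
      have h1 : ∏ t' ∈ (𝒯.erase t).erase t₀, v (1 - r t') ≤ 1 :=
        Finset.prod_le_one' fun t' ht' =>
          hone_le t' (Finset.mem_of_mem_erase (Finset.mem_of_mem_erase ht'))
      calc v (1 - r t₀) * ∏ t' ∈ (𝒯.erase t).erase t₀, v (1 - r t')
          ≤ v (1 - r t₀) * 1 := mul_le_mul_right h1 _
        _ = v (1 - r t₀) := mul_one _
        _ < 1 := hr₀lt
  -- Hensel
  have hev : ∀ (q : (P.comap (algebraMap E Qb) : Type)[X]) (a : P.comap (algebraMap E Qb)),
      ι (q.eval a) = (q.map ι).eval (ι a) := fun q a => (Polynomial.eval_map_apply ι a).symm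
  have hH1 : hR.eval 1 ∈ IsLocalRing.maximalIdeal (P.comap (algebraMap E Qb)) := by
    rw [mem_maximalIdeal_RE_iff, ValuationSubring.mem_nonunits_iff, ← hιval, hev, hRmap, map_one]
    exact hG1
  have hH2 : IsUnit ((derivative hR).eval 1) := by
    rw [← IsLocalRing.notMem_maximalIdeal, mem_maximalIdeal_RE_iff,
      ValuationSubring.mem_nonunits_iff, ← hιval, hev, ← Polynomial.derivative_map, hRmap,
      map_one]
    show ¬ v _ < 1
    rw [hG2]
    exact lt_irrefl _
  obtain ⟨a, ha, ha1⟩ := HenselianLocalRing.is_henselian hR hRmonic 1 hH1 hH2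
  have haroot : h.eval (ι a) = 0 := by
    rw [← hRmap, ← hev, ha.eq_zero]
    exact map_zero ι
  have ha1' : v (ι a - 1) < 1 := by
    rw [mem_maximalIdeal_RE_iff, ValuationSubring.mem_nonunits_iff] at ha1
    exact ha1
  have hav : v (ι a) = 1 := by
    have h1 : ι a = 1 + (ι a - 1) := by ring
    rw [h1]
    exact Valuation.map_one_add_of_lt v ha1'
  rw [hh, Polynomial.eval_prod, Finset.prod_eq_zero_iff] at haroot
  obtain ⟨t, ht, hta⟩ := haroot
  have hta' : ι a = r t := by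
    simp only [eval_sub, eval_X, eval_C] at hta
    exact sub_eq_zero.mp hta
  have htt : t = t₀ := by
    by_contra hne
    have := hlt t ht hne
    rw [← hta', hav] at this
    exact lt_irrefl _ this
  rw [← htt, ← hta']
  exact (a : E).2

end Hensel

section Main

variable (P : ValuationSubring Qb) (E : IntermediateField ℚ Qb)

/-- The Galois action on products over subsets. -/
theorem goodUp_map_prod_image (τ : Qb ≃ₐ[ℚ] Qb) (T : Finset Qb) :
    τ (∏ c ∈ T, c) = ∏ c ∈ T.image τ, c := by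
  classical
  rw [map_prod, Finset.prod_image (fun a _ b _ h => τ.injective h)]

/-- An automorphism stabilising `C` permutes the `m`-subsets of `C`. -/
theorem goodUp_image_powersetCard (τ : Qb ≃ₐ[ℚ] Qb) (C : Finset Qb) (hC : ∀ c ∈ C, τ c ∈ C)
    (m : ℕ) : (C.powersetCard m).image (Finset.image τ) = C.powersetCard m := by
  classical
  apply Finset.eq_of_subset_of_card_le
  · intro T hT
    obtain ⟨T', hT', rfl⟩ := Finset.mem_image.mp hT
    rw [Finset.mem_powersetCard] at hT' ⊢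
    refine ⟨?_, ?_⟩
    · intro c hc
      obtain ⟨c', hc', rfl⟩ := Finset.mem_image.mp hc
      exact hC c' (hT'.1 hc')
    · rw [Finset.card_image_of_injective _ τ.injective, hT'.2]
  · rw [Finset.card_image_of_injective _ (Finset.image_injective τ.injective)]

/-- **Uniqueness of the extension of a henselian valuation.**  If `R_E = P ∩ E` is henselian,
every automorphism of `ℚ̄` fixing `E` pointwise preserves the valuation of `P`. -/
theorem goodUp_valuation_eq [HenselianLocalRing (P.comap (algebraMap E Qb))]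
    (σ : Qb ≃ₐ[ℚ] Qb) (hσ : ∀ e ∈ E, σ e = e) (x : Qb) :
    P.valuation (σ x) = P.valuation x := by
  classical
  by_contra hne
  set v := P.valuation with hv
  have hx0 : x ≠ 0 := by
    rintro rfl
    exact hne (by simp)
  obtain ⟨O, hxC, hstab, htrans⟩ := goodUp_exists_orbit E x
  have hC0 : ∀ c ∈ O, c ≠ 0 := by
    intro c hc
    obtain ⟨τ, -, rfl⟩ := htrans x hxC c hc
    intro h0
    exact hx0 (by simpa using h0)
  obtain ⟨c₀, hc₀, hmax⟩ := Finset.exists_max_image O (fun c => v c) ⟨x, hxC⟩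
  set W := v c₀ with hWdef
  have hW : W ≠ 0 := (Valuation.ne_zero_iff v).mpr (hC0 c₀ hc₀)
  -- an element of smaller value
  obtain ⟨c', hc', hc'lt⟩ : ∃ c' ∈ O, v c' < W := by
    by_contra hall
    simp only [not_exists, not_and, not_lt] at hall
    have h1 : v x = W := le_antisymm (hmax x hxC) (hall x hxC)
    have h2 : v (σ x) = W :=
      le_antisymm (hmax _ (hstab σ hσ x hxC)) (hall _ (hstab σ hσ x hxC))
    exact hne (h2.trans h1.symm)
  set T₀ := O.filter (fun c => v c = W) with hT₀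
  set m := T₀.card with hm
  set 𝒯 := O.powersetCard m with h𝒯
  have hT₀𝒯 : T₀ ∈ 𝒯 := Finset.mem_powersetCard.mpr ⟨Finset.filter_subset _ _, rfl⟩
  set π : Finset Qb → Qb := fun T => ∏ c ∈ T, c with hπ
  have hπ₀ : v (π T₀) = W ^ m := by
    simp only [π]
    rw [map_prod, Finset.prod_congr rfl (fun c hc => (Finset.mem_filter.mp hc).2),
      Finset.prod_const]
  have hπlt : ∀ T ∈ 𝒯, T ≠ T₀ → v (π T) < W ^ m := by
    intro T hT hne'
    rw [Finset.mem_powersetCard] at hT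
    obtain ⟨c₁, hc₁, hc₁'⟩ : ∃ c₁ ∈ T, c₁ ∉ T₀ := by
      by_contra hall
      simp only [not_exists, not_and, not_not] at hall
      exact hne' (Finset.eq_of_subset_of_card_le hall (by rw [hT.2]))
    have hlt1 : v c₁ < W := by
      refine lt_of_le_of_ne (hmax c₁ (hT.1 hc₁)) ?_
      intro heq
      exact hc₁' (Finset.mem_filter.mpr ⟨hT.1 hc₁, heq⟩)
    have := goodUp_val_prod_lt v T W hW (fun c hc => hmax c (hT.1 hc)) c₁ hc₁ hlt1
    rwa [hT.2] at this
  have hWm : W ^ m ≠ 0 := pow_ne_zero _ hW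
  set b := ∑ T ∈ 𝒯, π T with hbdef
  have hb : v b = W ^ m := by
    rw [← hπ₀]
    exact goodUp_val_sum_dominant v 𝒯 T₀ hT₀𝒯 π (by rw [hπ₀]; exact hWm)
      (fun T hT hne' => by rw [hπ₀]; exact hπlt T hT hne')
  have hb0 : b ≠ 0 := (Valuation.ne_zero_iff v).mp (by rw [hb]; exact hWm)
  set r : Finset Qb → Qb := fun T => π T / b with hr
  have hrlt : ∀ T ∈ 𝒯, T ≠ T₀ → v (r T) < 1 := by
    intro T hT hne'
    simp only [r]
    rw [map_div₀, hb]
    exact (div_lt_one₀ (zero_lt_iff.mpr hWm)).mpr (hπlt T hT hne')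
  have hr₀ : v (r T₀) = 1 := by
    simp only [r]
    rw [map_div₀, hb, hπ₀]
    exact div_self hWm
  have hsum : ∑ T ∈ 𝒯, r T = 1 := by
    simp only [r]
    rw [← Finset.sum_div]
    exact div_self hb0
  -- equivariance
  have hτπ : ∀ τ : Qb ≃ₐ[ℚ] Qb, ∀ T, τ (π T) = π (T.image τ) :=
    fun τ T => goodUp_map_prod_image τ T
  have hτb : ∀ τ : Qb ≃ₐ[ℚ] Qb, (∀ e ∈ E, τ e = e) → τ b = b := by
    intro τ hτ
    simp only [b]
    rw [map_sum]
    conv_rhs => rw [h𝒯, ← goodUp_image_powersetCard τ O (hstab τ hτ) m]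
    rw [Finset.sum_image (fun a _ b _ h => Finset.image_injective τ.injective h)]
    exact Finset.sum_congr rfl (fun T _ => hτπ τ T)
  have hτr : ∀ τ : Qb ≃ₐ[ℚ] Qb, (∀ e ∈ E, τ e = e) → ∀ T, τ (r T) = r (T.image τ) := by
    intro τ hτ T
    simp only [r]
    rw [map_div₀, hτb τ hτ, hτπ]
  -- coefficients in `E`
  have hE : ∀ n, (∏ T ∈ 𝒯, (X - C (r T))).coeff n ∈ E := by
    intro n
    apply mem_of_fixed E
    intro τ hτ
    have h1 : (∏ T ∈ 𝒯, (X - C (r T))).map (τ : Qb →+* Qb) = ∏ T ∈ 𝒯, (X - C (r T)) := by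
      rw [Polynomial.map_prod]
      conv_rhs => rw [h𝒯, ← goodUp_image_powersetCard τ O (hstab τ hτ) m]
      rw [Finset.prod_image (fun a _ b _ h => Finset.image_injective τ.injective h)]
      apply Finset.prod_congr rfl
      intro T _
      rw [Polynomial.map_sub, Polynomial.map_X, Polynomial.map_C]
      congr 2
      exact hτr τ hτ T
    have h2 := congrArg (fun q => q.coeff n) h1
    simp only [Polynomial.coeff_map] at h2
    exact h2
  have hmem := goodUp_dominant_mem P E 𝒯 T₀ hT₀𝒯 r hrlt hsum hE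
  -- contradiction
  obtain ⟨τ, hτ, hτc⟩ := htrans c₀ hc₀ c' hc'
  have h1 : τ (r T₀) = r T₀ := hτ _ hmem
  rw [hτr τ hτ] at h1
  have h2 : T₀.image τ ∈ 𝒯 := by
    rw [h𝒯, ← goodUp_image_powersetCard τ O (hstab τ hτ) m]
    exact Finset.mem_image_of_mem _ hT₀𝒯
  have h3 : T₀.image τ ≠ T₀ := by
    intro heq
    have : c' ∈ T₀ := by
      rw [← heq, ← hτc]
      exact Finset.mem_image_of_mem _ (Finset.mem_filter.mpr ⟨hc₀, rfl⟩)
    exact absurd (Finset.mem_filter.mp this).2 hc'lt.ne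
  have h4 := hrlt _ h2 h3
  rw [h1, hr₀] at h4
  exact lt_irrefl _ h4

/-- Automorphisms fixing `E` preserve `P` and its non-units (`R_E` henselian). -/
theorem goodUp_map_mem [HenselianLocalRing (P.comap (algebraMap E Qb))]
    (σ : Qb ≃ₐ[ℚ] Qb) (hσ : ∀ e ∈ E, σ e = e) {x : Qb} (hx : x ∈ P) : σ x ∈ P := by
  rw [← P.valuation_le_one_iff] at hx ⊢
  rwa [goodUp_valuation_eq P E σ hσ x]

theorem goodUp_map_mem_nonunits [HenselianLocalRing (P.comap (algebraMap E Qb))]
    (σ : Qb ≃ₐ[ℚ] Qb) (hσ : ∀ e ∈ E, σ e = e) {x : Qb} (hx : x ∈ P.nonunits) :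
    σ x ∈ P.nonunits := by
  rw [ValuationSubring.mem_nonunits_iff] at hx ⊢
  rwa [goodUp_valuation_eq P E σ hσ x]

end Main

end Fermat.Agent.Ribet.H152
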