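/-
RIBET / WALL-p, leaf NC-IF, part 3 (helper152): enlargement of a good level.

`P` a valuation subring of `ℚ̄` over the prime `q`, `E` a good level for `P` (`A2.GoodField P E`),
`S` a finite set of algebraic numbers.  Then `E' = E(conjugates of S)` (`goodUpLevel E S`) is a
good level, `E ≤ E'`, `S ⊆ E'`, `[E' : E] < ∞` (`goodField_goodUpLevel`, `exists_goodField_ge`).
-/
import Fermat.Agent.Ribet.H152.GoodInertia

set_option autoImplicit false
set_option linter.unusedSectionVars false
set_option linter.style.haveILetI false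

namespace Fermat.Agent.Ribet.H152

open Polynomial Fermat.Agent.A2 Fermat.Agent.A2.IF.H429
open Fermat.Agent.S55.Bridge Fermat.Agent.S55.Bridge.H594

attribute [local instance] isAlgebraic_Qbar isGalois_Qbar

variable (P : ValuationSubring Qb) (E : IntermediateField ℚ Qb)

/-! ## The enlarged level -/

/-- `E` with all conjugates of `S` adjoined, over `E`. -/
noncomputable def goodUpLevel₁ (S : Finset Qb) : IntermediateField E Qb :=
  IntermediateField.adjoin E (conjSet S)

instance goodUpLevel₁_finiteDimensional (S : Finset Qb) :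
    FiniteDimensional E (goodUpLevel₁ E S) := by
  haveI : Finite (conjSet S) := (conjSet_finite S).to_subtype
  exact IntermediateField.finiteDimensional_adjoin
    (fun x _ => Algebra.IsIntegral.isIntegral x)

/-- `E` with all conjugates of `S` adjoined, as an intermediate field of `ℚ̄/ℚ`. -/
noncomputable def goodUpLevel (S : Finset Qb) : IntermediateField ℚ Qb :=
  (goodUpLevel₁ E S).restrictScalars ℚ

theorem mem_goodUpLevel_iff (S : Finset Qb) (x : Qb) :
    x ∈ goodUpLevel E S ↔ x ∈ goodUpLevel₁ E S := Iff.rfl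

theorem le_goodUpLevel (S : Finset Qb) : E ≤ goodUpLevel E S := by
  intro x hx
  rw [mem_goodUpLevel_iff]
  exact (goodUpLevel₁ E S).algebraMap_mem ⟨x, hx⟩

theorem mem_goodUpLevel_of_mem (S : Finset Qb) {s : Qb} (hs : s ∈ S) : s ∈ goodUpLevel E S := by
  rw [mem_goodUpLevel_iff]
  exact IntermediateField.subset_adjoin _ _ (mem_conjSet S hs)

/-- The enlarged level is stable under every automorphism stabilising `E`. -/
theorem goodUpLevel_stable (S : Finset Qb) (τ : Qb ≃ₐ[ℚ] Qb) (hτ : ∀ e ∈ E, τ e ∈ E)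
    {x : Qb} (hx : x ∈ goodUpLevel E S) : τ x ∈ goodUpLevel E S := by
  have hx' := (mem_goodUpLevel_iff E S x).mp hx
  unfold goodUpLevel₁ at hx'
  induction hx' using IntermediateField.adjoin_induction with
  | mem y hy =>
    exact (mem_goodUpLevel_iff E S _).mpr
      (IntermediateField.subset_adjoin _ _ (map_mem_conjSet S τ hy))
  | algebraMap y => exact le_goodUpLevel E S (hτ _ y.2)
  | add y z hy hz ihy ihz =>
    rw [map_add]
    exact add_mem (ihy ((mem_goodUpLevel_iff E S _).mpr hy))
      (ihz ((mem_goodUpLevel_iff E S _).mpr hz))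
  | inv y hy ihy =>
    rw [map_inv₀]
    exact inv_mem (ihy ((mem_goodUpLevel_iff E S _).mpr hy))
  | mul y z hy hz ihy ihz =>
    rw [map_mul]
    exact mul_mem (ihy ((mem_goodUpLevel_iff E S _).mpr hy))
      (ihz ((mem_goodUpLevel_iff E S _).mpr hz))

/-- An automorphism fixing `E` and the conjugates of `S` fixes the enlarged level. -/
theorem goodUpLevel_fixed (S : Finset Qb) (ρ : Qb ≃ₐ[ℚ] Qb)
    (hρ : ∀ e ∈ E, ρ e = e) (hS : ∀ x ∈ conjSet S, ρ x = x)
    {x : Qb} (hx : x ∈ goodUpLevel E S) : ρ x = x := by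
  rw [mem_goodUpLevel_iff] at hx
  unfold goodUpLevel₁ at hx
  induction hx using IntermediateField.adjoin_induction with
  | mem x hx => exact hS x hx
  | algebraMap x => exact hρ _ x.2
  | add x y _ _ hx hy => rw [map_add, hx, hy]
  | inv x _ hx => rw [map_inv₀, hx]
  | mul x y _ _ hx hy => rw [map_mul, hx, hy]

/-- Finite order on the enlarged level. -/
theorem goodUpLevel_finite_order (S : Finset Qb) (τ : Qb ≃ₐ[ℚ] Qb)
    (hτ : ∃ r : ℕ, 0 < r ∧ ∀ e : Qb, e ∈ E → (⇑τ)^[r] e = e) :
    ∃ r : ℕ, 0 < r ∧ ∀ e : Qb, e ∈ goodUpLevel E S → (⇑τ)^[r] e = e := by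
  obtain ⟨r₁, hr₁, hE⟩ := hτ
  obtain ⟨r₂, hr₂, hT⟩ := exists_pow_fixes_finset τ (conjSet_finite S).toFinset
  refine ⟨r₁ * r₂, Nat.mul_pos hr₁ hr₂, fun e he => ?_⟩
  rw [iterate_eq_pow_apply]
  apply goodUpLevel_fixed E S (τ ^ (r₁ * r₂)) _ _ he
  · intro e he
    apply pow_mul_apply_eq τ r₁ r₂ e
    rw [← iterate_eq_pow_apply]
    exact hE e he
  · intro x hx
    rw [mul_comm]
    exact pow_mul_apply_eq τ r₂ r₁ x (hT x ((conjSet_finite S).mem_toFinset.mpr hx))

/-! ## Values -/

/-- Units of `R_E` have valuation one. -/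
theorem goodUp_valuation_unit {u : RE P E} (hu : IsUnit u) :
    P.valuation (((u : E) : Qb)) = 1 := by
  have h1 : IsUnit (inclRE P E u) := hu.map (inclRE P E)
  exact (ValuationSubring.valuation_eq_one_iff P (inclRE P E u)).mp h1

/-- In `R_E`, a DVR with uniformiser `w`, every nonzero element of `E` has the valuation of an
integral power of `w`. -/
theorem goodUp_exists_zpow_valuation_eq [IsDiscreteValuationRing (RE P E)] {w : RE P E}
    (hw : Irreducible w) {e : Qb} (he : e ∈ E) (he0 : e ≠ 0) :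
    ∃ k : ℤ, P.valuation e = P.valuation (((w : E) : Qb)) ^ k := by
  have key : ∀ r : RE P E, r ≠ 0 →
      ∃ k : ℕ, P.valuation (((r : E) : Qb)) = P.valuation (((w : E) : Qb)) ^ k := by
    intro r hr
    obtain ⟨k, u, hu⟩ := IsDiscreteValuationRing.eq_unit_mul_pow_irreducible hr hw
    refine ⟨k, ?_⟩
    have h1 : (((r : E) : Qb)) = ((((u : RE P E) : E) : Qb)) * (((w : E) : Qb)) ^ k := by
      have := congrArg (fun z : RE P E => (((z : E)) : Qb)) hu
      simpa using this
    rw [h1, map_mul, map_pow, goodUp_valuation_unit P E u.isUnit, one_mul]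
  rcases P.mem_or_inv_mem e with h | h
  · obtain ⟨k, hk⟩ := key (⟨⟨e, he⟩, h⟩ : RE P E)
      (fun h0 => he0 (congrArg (fun z : RE P E => (((z : E)) : Qb)) h0))
    exact ⟨k, by rw [zpow_natCast]; exact hk⟩
  · have he' : e⁻¹ ∈ E := inv_mem he
    obtain ⟨k, hk⟩ := key (⟨⟨e⁻¹, he'⟩, h⟩ : RE P E)
      (fun h0 => inv_ne_zero he0 (congrArg (fun z : RE P E => (((z : E)) : Qb)) h0))
    refine ⟨-(k : ℤ), ?_⟩
    have h1 : P.valuation e⁻¹ = P.valuation (((w : E) : Qb)) ^ k := hk
    rw [map_inv₀] at h1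
    rw [zpow_neg, zpow_natCast, ← h1, inv_inv]

/-- In a discretely valued level over `q`, a fixed power of every nonzero element has the value
of a power of `q`. -/
theorem goodUp_exists_zpow_q (q : ℕ) (hq : q.Prime) (hP : P.LiesOverPrime q)
    [IsDiscreteValuationRing (RE P E)] :
    ∃ e₀ : ℕ, 0 < e₀ ∧ ∀ a : Qb, a ∈ E → a ≠ 0 →
      ∃ k : ℤ, P.valuation (a ^ e₀) = P.valuation (q : Qb) ^ k := by
  obtain ⟨w, hw⟩ := IsDiscreteValuationRing.exists_irreducible (RE P E)
  have hqP : (q : Qb) ∈ P := P.nonunits_le hP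
  let qR : RE P E := ⟨⟨(q : Qb), natCast_mem E q⟩, hqP⟩
  have hqR0 : qR ≠ 0 := by
    intro h0
    have h1 := congrArg (fun z : RE P E => (((z : E)) : Qb)) h0
    have h2 : (q : Qb) = 0 := by simpa [qR] using h1
    exact hq.ne_zero (by exact_mod_cast h2)
  obtain ⟨e₀, u, hu⟩ := IsDiscreteValuationRing.eq_unit_mul_pow_irreducible hqR0 hw
  have hval : P.valuation (q : Qb) = P.valuation (((w : E) : Qb)) ^ e₀ := by
    have h1 : (q : Qb) = ((((u : RE P E) : E) : Qb)) * (((w : E) : Qb)) ^ e₀ := by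
      have := congrArg (fun z : RE P E => (((z : E)) : Qb)) hu
      simpa [qR] using this
    rw [h1, map_mul, map_pow, goodUp_valuation_unit P E u.isUnit, one_mul]
  have he₀ : 0 < e₀ := by
    rcases Nat.eq_zero_or_pos e₀ with h | h
    · exfalso
      rw [h, pow_zero] at hval
      have := valuation_natCast_lt_one P q hP
      rw [hval] at this
      exact lt_irrefl _ this
    · exact h
  refine ⟨e₀, he₀, fun a ha ha0 => ?_⟩
  obtain ⟨k, hk⟩ := goodUp_exists_zpow_valuation_eq P E hw ha ha0
  refine ⟨k, ?_⟩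
  rw [map_pow, hk, hval, ← zpow_natCast, ← zpow_natCast, ← zpow_mul, ← zpow_mul, mul_comm]

/-- Conjugates over a henselian level have the same valuation. -/
theorem goodUp_valuation_eq_of_root_minpoly [HenselianLocalRing (P.comap (algebraMap E Qb))]
    (x r : Qb) (hr : aeval r (minpoly E x) = 0) : P.valuation r = P.valuation x := by
  haveI : IsGalois E Qb := IsGalois.tower_top_of_isGalois ℚ E Qb
  haveI : Normal E Qb := IsGalois.to_normal
  have hx : IsAlgebraic E x := Algebra.IsAlgebraic.isAlgebraic x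
  obtain ⟨σ, hσ⟩ := minpoly.exists_algEquiv_of_root hx hr
  have h1 := goodUp_valuation_eq P E (σ.restrictScalars ℚ) (fun e he => σ.commutes ⟨e, he⟩) r
  rw [← hσ]
  exact h1.symm

/-- For `x` in a finite extension `E₁` of a good level `E`, a fixed power of `x` has the value of
a power of `q`. -/
theorem goodUp_exists_pow_valuation_eq (q : ℕ) (hq : q.Prime) (hP : P.LiesOverPrime q)
    [IsDiscreteValuationRing (RE P E)] [HenselianLocalRing (P.comap (algebraMap E Qb))]
    (E₁ : IntermediateField E Qb) [FiniteDimensional E E₁] :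
    ∃ N : ℕ, 0 < N ∧ ∀ x : Qb, x ∈ E₁ → x ≠ 0 →
      ∃ k : ℤ, P.valuation (x ^ N) = P.valuation (q : Qb) ^ k := by
  obtain ⟨e₀, he₀, hE⟩ := goodUp_exists_zpow_q P E q hq hP
  refine ⟨(Module.finrank E E₁).factorial * e₀, Nat.mul_pos (Nat.factorial_pos _) he₀,
    fun x hx hx0 => ?_⟩
  have hxint : IsIntegral E x := Algebra.IsIntegral.isIntegral x
  set p := minpoly E x with hp
  have hd0 : 0 < p.natDegree := minpoly.natDegree_pos hxint
  have hd : p.natDegree ≤ Module.finrank E E₁ := by
    have h1 := minpoly.natDegree_le (A := E) (⟨x, hx⟩ : E₁)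
    rw [IntermediateField.minpoly_eq] at h1
    exact h1
  have hpm : p.Monic := minpoly.monic hxint
  have hc0 : p.coeff 0 ≠ 0 := minpoly.coeff_zero_ne_zero hxint hx0
  have hval : P.valuation ((p.coeff 0 : E) : Qb) = P.valuation x ^ p.natDegree := by
    have hsplit : (p.map (algebraMap E Qb)).Splits := IsAlgClosed.splits _
    have h1 := hsplit.coeff_zero_eq_prod_roots_of_monic (hpm.map _)
    rw [coeff_map] at h1
    have h2 : algebraMap E Qb (p.coeff 0) = ((p.coeff 0 : E) : Qb) := rfl
    rw [h2] at h1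
    rw [h1, map_mul, map_pow, Valuation.map_neg, map_one, one_pow, one_mul, map_multiset_prod]
    have h3 : (p.map (algebraMap E Qb)).roots.map P.valuation =
        Multiset.replicate (p.map (algebraMap E Qb)).roots.card (P.valuation x) := by
      rw [Multiset.eq_replicate]
      refine ⟨Multiset.card_map _ _, fun b hb => ?_⟩
      obtain ⟨r, hr, rfl⟩ := Multiset.mem_map.mp hb
      apply goodUp_valuation_eq_of_root_minpoly P E x r
      have h4 := isRoot_of_mem_roots hr
      rw [IsRoot, eval_map, ← aeval_def] at h4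
      exact h4
    rw [h3, Multiset.prod_replicate, ← hsplit.natDegree_eq_card_roots, hpm.natDegree_map]
  obtain ⟨k, hk⟩ := hE ((p.coeff 0 : E) : Qb) (p.coeff 0).2 (fun h => hc0 (Subtype.ext h))
  obtain ⟨c, hc⟩ := Nat.dvd_factorial hd0 hd
  refine ⟨k * c, ?_⟩
  rw [hc, map_pow, mul_assoc, pow_mul, ← hval, mul_comm c e₀, pow_mul, ← map_pow, hk, zpow_mul,
    zpow_natCast]

/-! ## The enlarged level is good -/

/-- **Enlargement of a good level.** -/
theorem goodField_goodUpLevel (q : ℕ) (hq : q.Prime) (hP : P.LiesOverPrime q)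
    (hE : GoodField P E) (S : Finset Qb) : GoodField P (goodUpLevel E S) := by
  haveI := hE.dvr
  haveI := hE.henselian
  have hI : inertiaField P ≤ goodUpLevel E S :=
    (inertiaField_le_of_goodField P E q hq hP hE).trans (le_goodUpLevel E S)
  refine ⟨?_, ?_, ?_, ?_, ?_, ?_⟩
  · intro τ hτ e he
    exact goodUpLevel_stable E S τ (fun e he => hE.stable τ hτ e he) he
  · obtain ⟨N, hN, h⟩ := goodUp_exists_pow_valuation_eq P E q hq hP (goodUpLevel₁ E S)
    exact isDiscreteValuationRing_RE_of_pow P q hq hP (goodUpLevel E S) N hN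
      (fun x hx hx0 => h x hx hx0)
  · exact henselian_RE P (goodUpLevel E S) hI
  · exact isAlgClosed_residueField_RE P (goodUpLevel E S) q hq hP hI
  · intro τ hτ e _ he
    exact sub_mem_nonunits_of_inertia P hτ he
  · intro τ hτ
    exact goodUpLevel_finite_order E S τ (hE.finite_order τ hτ)

/-- **NC-IF.**  Every good level `E` lies in a good level `E'` containing a given finite set,
finite over `E`. -/
theorem exists_goodField_ge (q : ℕ) (hq : q.Prime) (P : ValuationSubring Qb)
    (hP : P.LiesOverPrime q) (E : IntermediateField ℚ Qb) (hE : GoodField P E) (S : Finset Qb) :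
    ∃ E' : IntermediateField ℚ Qb, E ≤ E' ∧ (∀ s ∈ S, s ∈ E') ∧ GoodField P E' :=
  ⟨goodUpLevel E S, le_goodUpLevel E S, fun _ hs => mem_goodUpLevel_of_mem E S hs,
    goodField_goodUpLevel P E q hq hP hE S⟩

end Fermat.Agent.Ribet.H152
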